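import Fermat.Agent.H19.S58.Hasse3Ord21Abs
import Fermat.Agent.H51.S58.HasseGeneric

/-!
# S58 glue, row 1095 HASSE3 (helper19): the Hasse relation for the ORDINARY normal form
`y² = x³ + 2 x² + 1` over `𝔽₃`

* `hasseRelation_ord21 : HasseRelation ⟨0, 2, 0, 0, 1⟩`  (trace `-1`, five points).

The generic-point computation is `Fermat.Agent.H19.S58.o21_rel`; the passage from generic points
to all points is helper51's `Fermat.Agent.H51.S58.hasseRelation_of_generic`.
-/

set_option autoImplicit false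
set_option linter.unusedSectionVars false
set_option linter.unusedVariables false

namespace Fermat.Agent.H19.S58

open WeierstrassCurve WeierstrassCurve.Affine WeierstrassCurve.Affine.Point
open Fermat.Agent.H40

/-- `3 = 0` in an `𝔽₃`-algebra. -/
theorem h3o_three_eq_zero (K : Type*) [Field K] [Algebra (ZMod 3) K] : (3 : K) = 0 := by
  have h : (3 : K) = algebraMap (ZMod 3) K 3 := (map_ofNat _ 3).symm
  rw [h, show (3 : ZMod 3) = 0 from rfl, _root_.map_zero]

/-- Frobenius on affine points over `𝔽₃`. -/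
theorem h3o_frobPt_some (E : WeierstrassCurve (ZMod 3)) (K : Type*) [Field K] [DecidableEq K]
    [Algebra (ZMod 3) K] (a b : K) (hab : (E⁄K).toAffine.Nonsingular a b) :
    ∃ hab' : (E⁄K).toAffine.Nonsingular (a ^ 3) (b ^ 3),
      frobPt E K (Point.some a b hab) = Point.some (a ^ 3) (b ^ 3) hab' := by
  obtain ⟨h', e⟩ := frobPt_some E K hab
  have hc : Fintype.card (ZMod 3) = 3 := ZMod.card 3
  revert h' e
  rw [hc]
  intro h' e
  exact ⟨h', e⟩

/-- The number of points of a Weierstrass curve over `𝔽₃` from the number of nonsingular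
affine solutions. -/
theorem h3o_card (E : WeierstrassCurve (ZMod 3)) (n : ℕ)
    (hn : (Finset.univ.filter (fun xy : ZMod 3 × ZMod 3 =>
      (xy.2 ^ 2 + E.a₁ * xy.1 * xy.2 + E.a₃ * xy.2 =
        xy.1 ^ 3 + E.a₂ * xy.1 ^ 2 + E.a₄ * xy.1 + E.a₆) ∧
      (E.a₁ * xy.2 ≠ 3 * xy.1 ^ 2 + 2 * E.a₂ * xy.1 + E.a₄ ∨
        xy.2 ≠ -xy.2 - E.a₁ * xy.1 - E.a₃))).card = n) :
    E.card = n + 1 := by
  classical
  unfold WeierstrassCurve.card
  rw [Nat.card_congr (nonsingularPointEquiv E.toAffine)]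
  have e : {xy : ZMod 3 × ZMod 3 // E.toAffine.Nonsingular xy.1 xy.2} ≃
      {xy : ZMod 3 × ZMod 3 // (xy.2 ^ 2 + E.a₁ * xy.1 * xy.2 + E.a₃ * xy.2 =
        xy.1 ^ 3 + E.a₂ * xy.1 ^ 2 + E.a₄ * xy.1 + E.a₆) ∧
      (E.a₁ * xy.2 ≠ 3 * xy.1 ^ 2 + 2 * E.a₂ * xy.1 + E.a₄ ∨
        xy.2 ≠ -xy.2 - E.a₁ * xy.1 - E.a₃)} :=
    Equiv.subtypeEquivRight fun xy => by
      rw [nonsingular_iff, equation_iff]
  have h1 : Nat.card (WithZero {xy : ZMod 3 × ZMod 3 // E.toAffine.Nonsingular xy.1 xy.2}) =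
      Nat.card {xy : ZMod 3 × ZMod 3 // E.toAffine.Nonsingular xy.1 xy.2} + 1 := by
    show Nat.card (Option _) = _
    rw [Nat.card_eq_fintype_card, Fintype.card_option, Nat.card_eq_fintype_card]
  rw [h1, Nat.card_congr e, Nat.card_eq_fintype_card, Fintype.card_subtype, ← hn]

theorem h3o_trace21 : (⟨0, 2, 0, 0, 1⟩ : WeierstrassCurve (ZMod 3)).traceOfFrobenius = -1 := by
  unfold WeierstrassCurve.traceOfFrobenius
  rw [h3o_card _ 4 (by decide), Nat.card_eq_fintype_card, ZMod.card]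
  norm_num

/-- Generic points of `y² = x³ + 2 x² + 1`. -/
theorem h3o_generic21 (K : Type) [Field K] [DecidableEq K] [Algebra (ZMod 3) K] (x y : K)
    (hxy : ((⟨0, 2, 0, 0, 1⟩ : WeierstrassCurve (ZMod 3))⁄K).toAffine.Nonsingular x y)
    (hx0 : x ≠ 0) (hx1 : x ≠ 1) (hx2 : x + 1 ≠ 0) (hy : y ≠ 0) :
    hasseOp (⟨0, 2, 0, 0, 1⟩ : WeierstrassCurve (ZMod 3)) K (Point.some x y hxy) = 0 := by
  have key := o21_rel (((⟨0, 2, 0, 0, 1⟩ : WeierstrassCurve (ZMod 3))⁄K).toAffine)
    (h3o_three_eq_zero K) (_root_.map_zero _) (map_ofNat _ 2) (_root_.map_zero _)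
    (_root_.map_zero _) (_root_.map_one _)
    (frobPt (⟨0, 2, 0, 0, 1⟩ : WeierstrassCurve (ZMod 3)) K)
    (h3o_frobPt_some _ K) hxy hx0 hx1 hx2 hy
  rw [_root_.map_add] at key
  rw [hasseOp_apply, h3o_trace21, ZMod.card, ← key]
  rw [show ((3 : ℕ) : ℤ) = 3 from rfl]
  abel

/-- **HASSE3, ordinary form `y² = x³ + 2 x² + 1`.** -/
theorem hasseRelation_ord21 :
    HasseRelation (⟨0, 2, 0, 0, 1⟩ : WeierstrassCurve (ZMod 3)) := by
  classical
  refine Fermat.Agent.H51.S58.hasseRelation_of_generic _ (by decide) ?_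
  intro K _ _ _ _
  have hp : (Polynomial.X ^ 3 + 2 * Polynomial.X ^ 2 + 1 : Polynomial K) ≠ 0 := by
    intro h0
    have h1 := congrArg (fun p : Polynomial K => p.coeff 3) h0
    simp [Polynomial.coeff_X_pow, Polynomial.coeff_one] at h1
  refine ⟨insert 0 (insert 1 (insert (-1)
    (Polynomial.X ^ 3 + 2 * Polynomial.X ^ 2 + 1 : Polynomial K).roots.toFinset)),
    fun x y hxy hx => ?_⟩
  have hx0 : x ≠ 0 := fun h => hx (by rw [h]; exact Finset.mem_insert_self _ _)
  have hx1 : x ≠ 1 := fun h =>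
    hx (by rw [h]; exact Finset.mem_insert_of_mem (Finset.mem_insert_self _ _))
  have hx2 : x + 1 ≠ 0 := fun h =>
    hx (by
      rw [eq_neg_of_add_eq_zero_left h]
      exact Finset.mem_insert_of_mem (Finset.mem_insert_of_mem (Finset.mem_insert_self _ _)))
  have hy : y ≠ 0 := by
    intro hy0
    apply hx
    refine Finset.mem_insert_of_mem (Finset.mem_insert_of_mem (Finset.mem_insert_of_mem ?_))
    rw [Multiset.mem_toFinset, Polynomial.mem_roots hp, Polynomial.IsRoot.def]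
    have hC := (equation_iff x y).mp hxy.1
    simp only [WeierstrassCurve.baseChange, WeierstrassCurve.map_a₁, WeierstrassCurve.map_a₂,
      WeierstrassCurve.map_a₃, WeierstrassCurve.map_a₄, WeierstrassCurve.map_a₆,
      _root_.map_zero, _root_.map_one, map_ofNat] at hC
    simp only [Polynomial.eval_add, Polynomial.eval_mul, Polynomial.eval_pow,
      Polynomial.eval_X, Polynomial.eval_one, Polynomial.eval_ofNat]
    rw [hy0] at hC
    linear_combination -hC
  rw [h3o_generic21 K x y hxy hx0 hx1 hx2 hy, smul_zero]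

end Fermat.Agent.H19.S58
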