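import Mathlib

/-!
# S58 glue, row 1095 HASSE3 (helper19): the ORDINARY normal form `y² = x³ + 2 x² + 1` in
characteristic 3, abstract computation

For a Weierstrass curve `W : y² = x³ + 2 x² + 1` over a field `k` with `3 = 0`, a point
`P = (x, y)` with `x ∉ {0, 1, -1}`, `y ≠ 0`, and an additive map `F` acting on affine points by
`(a, b) ↦ (a³, b³)`:

  `F (F P + P) + 3 P = 0`     (`φ² + φ + 3 = 0`, trace `-1`).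

Here `F P + P = ((x³ + x + 1) / (x + 1)², y (x³ - x - 1) / (x + 1)³)` and
`x (3 P) = (x⁹ + x³ + 1) / (x³ + 1)²`.  Mathlib only.
-/

set_option autoImplicit false
set_option linter.unusedSectionVars false
set_option linter.unusedVariables false

namespace Fermat.Agent.H19.S58

open WeierstrassCurve WeierstrassCurve.Affine WeierstrassCurve.Affine.Point

variable {k : Type*} [Field k] [DecidableEq k]

section ord21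

variable (W : WeierstrassCurve.Affine k)
    (h3 : (3 : k) = 0) (ha₁ : W.a₁ = 0) (ha₂ : W.a₂ = 2) (ha₃ : W.a₃ = 0) (ha₄ : W.a₄ = 0)
    (ha₆ : W.a₆ = 1) {x y : k} (h : W.Equation x y) (hx0 : x ≠ 0) (hx1 : x ≠ 1)
    (hx2 : x + 1 ≠ 0) (hy : y ≠ 0)

include h3 ha₁ ha₂ ha₃ ha₄ ha₆ h hx0 hx1 hx2 hy

theorem o21_two_ne : (2 : k) ≠ 0 := by
  intro h2
  have : (1 : k) = 0 := by linear_combination h3 - h2
  exact one_ne_zero this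

theorem o21_negY (a b : k) : W.negY a b = -b := by
  simp only [negY, ha₁, ha₃]
  ring

theorem o21_Y_ne : y ≠ W.negY x y := by
  rw [o21_negY W h3 ha₁ ha₂ ha₃ ha₄ ha₆ h hx0 hx1 hx2 hy]
  intro h0
  have h2 := o21_two_ne W h3 ha₁ ha₂ ha₃ ha₄ ha₆ h hx0 hx1 hx2 hy
  have : (2 : k) * y = 0 := by linear_combination h0
  rcases mul_eq_zero.mp this with h1 | h1
  · exact h2 h1
  · exact hy h1

theorem o21_X_ne : x ^ 3 ≠ x := by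
  intro h0
  have h1 : x * ((x - 1) * (x + 1)) = 0 := by linear_combination h0
  rcases mul_eq_zero.mp h1 with h2 | h2
  · exact hx0 h2
  · rcases mul_eq_zero.mp h2 with h4 | h4
    · exact hx1 (sub_eq_zero.mp h4)
    · exact hx2 h4

theorem o21_slope_chord : W.slope (x ^ 3) x (y ^ 3) y = x * y / (x + 1) := by
  have hC := (equation_iff x y).mp h
  rw [ha₁, ha₂, ha₃, ha₄, ha₆] at hC
  have hne := o21_X_ne W h3 ha₁ ha₂ ha₃ ha₄ ha₆ h hx0 hx1 hx2 hy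
  have hd : x ^ 3 - x ≠ 0 := sub_ne_zero.mpr hne
  rw [slope_of_X_ne hne, div_eq_div_iff hd hx2]
  linear_combination (x * y + y) * hC + (x ^ 3 * y + x ^ 2 * y) * h3

theorem o21_addX_chord :
    W.addX (x ^ 3) x (x * y / (x + 1)) = (x ^ 3 + x + 1) / (x + 1) ^ 2 := by
  have hC := (equation_iff x y).mp h
  rw [ha₁, ha₂, ha₃, ha₄, ha₆] at hC
  simp only [addX, ha₁, ha₂]
  field_simp
  linear_combination (x ^ 2) * hC + (-x ^ 3 - x ^ 2 - 2 * x - 1) * h3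

theorem o21_addY_chord :
    W.addY (x ^ 3) x (y ^ 3) (x * y / (x + 1)) = y * (x ^ 3 - x - 1) / (x + 1) ^ 3 := by
  have hC := (equation_iff x y).mp h
  rw [ha₁, ha₂, ha₃, ha₄, ha₆] at hC
  simp only [addY, negAddY, negY, ha₁, ha₃,
    o21_addX_chord W h3 ha₁ ha₂ ha₃ ha₄ ha₆ h hx0 hx1 hx2 hy]
  field_simp
  linear_combination (-x ^ 3 * y - 3 * x ^ 2 * y - 3 * x * y - y) * hC + (-x ^ 5 * y - 3 * x ^ 4
    * y - 3 * x ^ 3 * y - 2 * x ^ 2 * y - x * y) * h3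

theorem o21_slope_dup : W.slope x x y y = -x / y := by
  have hC := (equation_iff x y).mp h
  rw [ha₁, ha₂, ha₃, ha₄, ha₆] at hC
  have hyn := o21_Y_ne W h3 ha₁ ha₂ ha₃ ha₄ ha₆ h hx0 hx1 hx2 hy
  have hd : y - W.negY x y ≠ 0 := sub_ne_zero.mpr hyn
  rw [slope_of_Y_ne rfl hyn, div_eq_div_iff hd hy]
  simp only [negY, ha₁, ha₂, ha₃, ha₄]
  linear_combination (0) * hC + (x ^ 2 * y + 2 * x * y) * h3

theorem o21_addX_dup : W.addX x x (-x / y) = (x ^ 4 + x + 1) / y ^ 2 := by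
  have hC := (equation_iff x y).mp h
  rw [ha₁, ha₂, ha₃, ha₄, ha₆] at hC
  simp only [addX, ha₁, ha₂]
  field_simp
  linear_combination (-2 * x - 2) * hC + (-x ^ 4 - 2 * x ^ 3 - x ^ 2 - x - 1) * h3

theorem o21_addY_dup :
    W.addY x x y (-x / y) = (-x ^ 6 - x ^ 5 + x ^ 3 - x ^ 2 + x - 1) / y ^ 3 := by
  have hC := (equation_iff x y).mp h
  rw [ha₁, ha₂, ha₃, ha₄, ha₆] at hC
  simp only [addY, negAddY, negY, ha₁, ha₃,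
    o21_addX_dup W h3 ha₁ ha₂ ha₃ ha₄ ha₆ h hx0 hx1 hx2 hy]
  field_simp
  linear_combination (-x ^ 3 - 3 * x ^ 2 - y ^ 2 - 1) * hC + (-x ^ 5 - 2 * x ^ 4 - x ^ 3 - x ^ 2)
    * h3

theorem o21_X2_sub : (x ^ 4 + x + 1) / y ^ 2 - x = (x + 1) ^ 3 / y ^ 2 := by
  have hC := (equation_iff x y).mp h
  rw [ha₁, ha₂, ha₃, ha₄, ha₆] at hC
  field_simp
  linear_combination (-x) * hC + (-x ^ 3 - x ^ 2 - x) * h3

theorem o21_X2_ne : (x ^ 4 + x + 1) / y ^ 2 ≠ x := by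
  intro h0
  have h1 := o21_X2_sub W h3 ha₁ ha₂ ha₃ ha₄ ha₆ h hx0 hx1 hx2 hy
  rw [h0, sub_self] at h1
  have h2 : (x + 1) ^ 3 / y ^ 2 ≠ 0 := div_ne_zero (pow_ne_zero _ hx2) (pow_ne_zero _ hy)
  exact h2 h1.symm

theorem o21_slope_3 :
    W.slope ((x ^ 4 + x + 1) / y ^ 2) x ((-x ^ 6 - x ^ 5 + x ^ 3 - x ^ 2 + x - 1) / y ^ 3) y =
      (x ^ 6 + x ^ 5 - x ^ 4 - x ^ 3 + x ^ 2 + x + 1) / (y * (x + 1) ^ 3) := by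
  have hC := (equation_iff x y).mp h
  rw [ha₁, ha₂, ha₃, ha₄, ha₆] at hC
  have hne := o21_X2_ne W h3 ha₁ ha₂ ha₃ ha₄ ha₆ h hx0 hx1 hx2 hy
  rw [slope_of_X_ne hne, o21_X2_sub W h3 ha₁ ha₂ ha₃ ha₄ ha₆ h hx0 hx1 hx2 hy]
  field_simp
  linear_combination (-x ^ 3 - 2 * x ^ 2 - y ^ 2 - 1) * hC + (-x ^ 6 - 2 * x ^ 5 - x ^ 4 - 2 * x
    ^ 2 - 1) * h3

theorem o21_addX_3 :
    W.addX ((x ^ 4 + x + 1) / y ^ 2) x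
      ((x ^ 6 + x ^ 5 - x ^ 4 - x ^ 3 + x ^ 2 + x + 1) / (y * (x + 1) ^ 3)) =
      (x ^ 9 + x ^ 3 + 1) / (x + 1) ^ 6 := by
  have hC := (equation_iff x y).mp h
  rw [ha₁, ha₂, ha₃, ha₄, ha₆] at hC
  simp only [addX, ha₁, ha₂]
  field_simp
  linear_combination (-x ^ 9 - x ^ 7 - 8 * x ^ 6 - 27 * x ^ 5 - 50 * x ^ 4 - 56 * x ^ 3 - 36 * x
    ^ 2 - 13 * x - 3) * hC + (-x ^ 10 - 7 * x ^ 9 - 19 * x ^ 8 - 40 * x ^ 7 - 61 * x ^ 6 - 68 * x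
    ^ 5 - 58 * x ^ 4 - 40 * x ^ 3 - 20 * x ^ 2 - 6 * x - 1) * h3

theorem o21_addY_3 :
    W.addY ((x ^ 4 + x + 1) / y ^ 2) x ((-x ^ 6 - x ^ 5 + x ^ 3 - x ^ 2 + x - 1) / y ^ 3)
      ((x ^ 6 + x ^ 5 - x ^ 4 - x ^ 3 + x ^ 2 + x + 1) / (y * (x + 1) ^ 3)) =
      -(y ^ 3 * (x ^ 9 - x ^ 3 - 1)) / (x + 1) ^ 9 := by
  have hC := (equation_iff x y).mp h
  rw [ha₁, ha₂, ha₃, ha₄, ha₆] at hC
  simp only [addY, negAddY, negY, ha₁, ha₃,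
    o21_addX_3 W h3 ha₁ ha₂ ha₃ ha₄ ha₆ h hx0 hx1 hx2 hy]
  field_simp
  linear_combination (3 * x ^ 14 + x ^ 12 * y ^ 2 + 5 * x ^ 13 + 2 * x ^ 11 * y ^ 2 + x ^ 9 * y ^
    4 + 3 * x ^ 12 + 3 * x ^ 11 + x ^ 9 * y ^ 2 - x ^ 10 - 2 * x ^ 9 - 5 * x ^ 8 - x ^ 6 * y ^ 2
    - 3 * x ^ 7 - 2 * x ^ 5 * y ^ 2 - x ^ 3 * y ^ 4 - 3 * x ^ 6 - 10 * x ^ 5 - 2 * x ^ 3 * y ^ 2
    - 4 * x ^ 4 - 2 * x ^ 2 * y ^ 2 - y ^ 4 - 3 * x ^ 3 - 5 * x ^ 2 - y ^ 2 - x - 2) * hC + (x ^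
    17 + 4 * x ^ 16 + 7 * x ^ 15 + 14 * x ^ 14 + 28 * x ^ 13 + 47 * x ^ 12 + 72 * x ^ 11 + 84 * x
    ^ 10 + 69 * x ^ 9 + 27 * x ^ 8 - x ^ 7 + 11 * x ^ 6 + 33 * x ^ 5 + 46 * x ^ 4 + 37 * x ^ 3 +
    16 * x ^ 2 + 5 * x) * h3

/-- The `x`-coordinate identity `x (F (F P + P)) = x (3 P)`. -/
theorem o21_X : ((x ^ 3 + x + 1) / (x + 1) ^ 2) ^ 3 = (x ^ 9 + x ^ 3 + 1) / (x + 1) ^ 6 := by
  have hC := (equation_iff x y).mp h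
  rw [ha₁, ha₂, ha₃, ha₄, ha₆] at hC
  field_simp
  linear_combination (0) * hC + (x ^ 7 + x ^ 6 + x ^ 5 + 2 * x ^ 4 + x ^ 3 + x ^ 2 + x) * h3

/-- The `y`-coordinate identity `y (F (F P + P)) = - y (3 P)`. -/
theorem o21_Y : (y * (x ^ 3 - x - 1) / (x + 1) ^ 3) ^ 3 =
    W.negY ((x ^ 9 + x ^ 3 + 1) / (x + 1) ^ 6) (-(y ^ 3 * (x ^ 9 - x ^ 3 - 1)) / (x + 1) ^ 9) := by
  have hC := (equation_iff x y).mp h
  rw [ha₁, ha₂, ha₃, ha₄, ha₆] at hC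
  simp only [negY, ha₁, ha₃]
  field_simp
  linear_combination (-3 * x ^ 7 * y - 3 * x ^ 6 * y + 3 * x ^ 5 * y + 6 * x ^ 4 * y + 3 * x ^ 3
    * y - 3 * x ^ 2 * y - 3 * x * y) * hC + (-x ^ 10 * y - 3 * x ^ 9 * y - x ^ 8 * y + 3 * x ^ 7
    * y + 4 * x ^ 6 * y + 2 * x ^ 5 * y - x ^ 4 * y - x ^ 3 * y - x ^ 2 * y - x * y) * h3

end ord21

/-- **Ordinary form `y² = x³ + 2 x² + 1`**: `F (F P + P) + 3 P = 0` for `x(P) ∉ {0, 1, -1}`,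
`y(P) ≠ 0`. -/
theorem o21_rel (W : WeierstrassCurve.Affine k)
    (h3 : (3 : k) = 0) (ha₁ : W.a₁ = 0) (ha₂ : W.a₂ = 2) (ha₃ : W.a₃ = 0) (ha₄ : W.a₄ = 0)
    (ha₆ : W.a₆ = 1) (F : W.Point → W.Point)
    (hF : ∀ (a b : k) (hab : W.Nonsingular a b), ∃ hab' : W.Nonsingular (a ^ 3) (b ^ 3),
      F (some a b hab) = some (a ^ 3) (b ^ 3) hab')
    {x y : k} (h : W.Nonsingular x y) (hx0 : x ≠ 0) (hx1 : x ≠ 1) (hx2 : x + 1 ≠ 0)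
    (hy : y ≠ 0) :
    F (F (some x y h) + some x y h) + (some x y h + some x y h + some x y h) = 0 := by
  have hXne := o21_X_ne W h3 ha₁ ha₂ ha₃ ha₄ ha₆ h.1 hx0 hx1 hx2 hy
  have hYne := o21_Y_ne W h3 ha₁ ha₂ ha₃ ha₄ ha₆ h.1 hx0 hx1 hx2 hy
  have hsd := o21_slope_dup W h3 ha₁ ha₂ ha₃ ha₄ ha₆ h.1 hx0 hx1 hx2 hy
  have hxd := o21_addX_dup W h3 ha₁ ha₂ ha₃ ha₄ ha₆ h.1 hx0 hx1 hx2 hy
  have hyd := o21_addY_dup W h3 ha₁ ha₂ ha₃ ha₄ ha₆ h.1 hx0 hx1 hx2 hy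
  have hsc := o21_slope_chord W h3 ha₁ ha₂ ha₃ ha₄ ha₆ h.1 hx0 hx1 hx2 hy
  have hxc := o21_addX_chord W h3 ha₁ ha₂ ha₃ ha₄ ha₆ h.1 hx0 hx1 hx2 hy
  have hyc := o21_addY_chord W h3 ha₁ ha₂ ha₃ ha₄ ha₆ h.1 hx0 hx1 hx2 hy
  have hs3 := o21_slope_3 W h3 ha₁ ha₂ ha₃ ha₄ ha₆ h.1 hx0 hx1 hx2 hy
  have hx3 := o21_addX_3 W h3 ha₁ ha₂ ha₃ ha₄ ha₆ h.1 hx0 hx1 hx2 hy
  have hy3 := o21_addY_3 W h3 ha₁ ha₂ ha₃ ha₄ ha₆ h.1 hx0 hx1 hx2 hy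
  have hX2ne : W.addX x x (W.slope x x y y) ≠ x := by
    rw [hsd, hxd]
    exact o21_X2_ne W h3 ha₁ ha₂ ha₃ ha₄ ha₆ h.1 hx0 hx1 hx2 hy
  obtain ⟨h₁, e₁⟩ := hF x y h
  rw [e₁, add_of_X_ne hXne]
  obtain ⟨h₂, e₂⟩ := hF _ _ (nonsingular_add h₁ h fun hxy => hXne hxy.left)
  rw [e₂, add_self_of_Y_ne hYne, add_of_X_ne hX2ne]
  apply add_of_Y_eq
  · rw [hsc, hxc, hsd, hxd, hyd, hs3, hx3]
    exact o21_X W h3 ha₁ ha₂ ha₃ ha₄ ha₆ h.1 hx0 hx1 hx2 hy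
  · rw [hsc, hyc, hsd, hxd, hyd, hs3, hx3, hy3]
    exact o21_Y W h3 ha₁ ha₂ ha₃ ha₄ ha₆ h.1 hx0 hx1 hx2 hy

end Fermat.Agent.H19.S58
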